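import Mathlib
import Fermat.Agent.FF2.G2.ChartPt

/-!
# MOONSHOT S19, block (GC): the geometric chord step (divisor level)

Abstract Program-L setting (`S : Red.RedSetup A π`, Riemann packages on both fibres).  A *chord*
sends `n` input points `Pin i` (one in each of `n` prescribed residue discs, centres `Qb i` on the
special fibre; the `Qb i` need not be distinct) to the `g` points `P' j` of an output chart
`C' : G2.ChartData S g` such that

`Σ Pin i + R + Σ P' j − m·∞`  is the divisor of a function `s` with residue `f0b`,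

where `R` is a fixed divisor, `∞ = Pinf` a fixed place and `f0b` spans the one-dimensional space
`L_k(m·r∞ − r_* R − Σ Qb i)` and has residual divisor exactly `Σ Pb' j` (the centres of the output
discs).

* `ChordData` : the data and the special-fibre hypotheses;
* `ChordData.exists_chord` : existence of `s` and `P'`;
* `ChordData.chord_unique` : uniqueness of `P'`;
* `ChordData.out`, `out_mem_Disc`, `out_spec`, `out_eq_iff` : the chord map;
* `ChordData.out_eq_pt` : in terms of the chart `C'.pt`: `out Pin = C'.pt (m∞ − R − ΣPin − ΣP0')`.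
-/

set_option autoImplicit false

namespace Fermat.Agent.FF2.GC

open AlgebraicCurve Module Fermat.Agent.Red Fermat.Agent.FF2.G2

variable {K F k Ft : Type*} [Field K] [Field F] [Algebra K F] [Field k] [Field Ft]
  [Algebra k Ft] {A : ValuationSubring K} {π : A →+* k}
  {S : RedSetup (F := F) (Ft := Ft) A π}

/-- If `res f = c • t` with `c ≠ 0`, `t ≠ 0`, a constant multiple of `f` has residue exactly
`t`. -/
theorem exists_smul_resF_eq (hπ : Function.Surjective π) {f : F} {c : k} {t : Ft} (hc : c ≠ 0)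
    (ht : t ≠ 0) (hres : S.resF f = c • t) : ∃ a : K, a ≠ 0 ∧ S.resF (a • f) = t := by
  obtain ⟨a, ha⟩ := hπ c⁻¹
  have hne : S.resF f ≠ 0 := by
    rw [hres]
    exact smul_ne_zero hc ht
  have hfO := S.mem_of_resF_ne_zero hne
  refine ⟨(a : K), ?_, ?_⟩
  · intro h0
    have : a = 0 := Subtype.ext h0
    rw [this, map_zero] at ha
    exact inv_ne_zero hc ha.symm
  · rw [S.resF_smul a.2 hfO, hres, smul_smul]
    have : π ⟨(a : K), a.2⟩ = c⁻¹ := ha
    rw [this, inv_mul_cancel₀ hc, one_smul]

/-- Data of a chord: see the module docstring. -/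
structure ChordData {g : ℕ} (C' : ChartData S g) (n : ℕ) where
  /-- the place at infinity -/
  Pinf : Place K F
  /-- the pole order at infinity -/
  m : ℕ
  /-- the fixed part -/
  R : Divisor K F
  /-- the centres of the input discs -/
  Qb : Fin n → Place k Ft
  /-- the generator on the special fibre -/
  f0b : Ft
  f0b_ne_zero : f0b ≠ 0
  hspan : ∀ h ∈ riemannRochSpace
    (Finsupp.single (S.r Pinf) (m : ℤ) - Finsupp.mapDomain S.r R - sumPts Qb),
      ∃ c : k, h = c • f0b
  hdiv : ∀ Q : Place k Ft, (sumPts Qb + Finsupp.mapDomain S.r R + sumPts C'.Pb -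
    Finsupp.single (S.r Pinf) (m : ℤ)) Q = Q.ord f0b
  hdeg : (m : ℤ) - Divisor.degree R - n = g

namespace ChordData

variable {g n : ℕ} {C' : ChartData S g} (X : ChordData C' n)

/-- The divisor `m∞ − R − Σ Pin` whose Riemann–Roch space contains the chord function. -/
noncomputable def inDiv (Pin : Fin n → Place K F) : Divisor K F :=
  Finsupp.single X.Pinf (X.m : ℤ) - X.R - sumPts Pin

theorem degree_inDiv (hF : RiemannPkg K F) (Pin : Fin n → Place K F) :
    Divisor.degree (X.inDiv Pin) = g := by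
  rw [inDiv, map_sub, map_sub, degree_single_of_pkg hF, degree_sumPts hF]
  exact X.hdeg

theorem mapDomain_inDiv {Pin : Fin n → Place K F} (hPin : ∀ i, S.r (Pin i) = X.Qb i) :
    Finsupp.mapDomain S.r (X.inDiv Pin) =
      Finsupp.single (S.r X.Pinf) (X.m : ℤ) - Finsupp.mapDomain S.r X.R - sumPts X.Qb := by
  rw [inDiv, mapDomain_sub', mapDomain_sub', Finsupp.mapDomain_single, mapDomain_sumPts]
  congr 2
  funext i
  exact hPin i

theorem divOf_f0b (hFt : RiemannPkg k Ft) :
    haveI := hFt.principal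
    divOf k X.f0b = sumPts X.Qb + Finsupp.mapDomain S.r X.R + sumPts C'.Pb -
      Finsupp.single (S.r X.Pinf) (X.m : ℤ) := by
  haveI := hFt.principal
  exact divOf_eq_of_forall X.hdiv

/-- **(GC1) existence of the chord**. -/
theorem exists_chord (hπ : Function.Surjective π) (hF : RiemannPkg K F) (hFt : RiemannPkg k Ft)
    (hg : genusFF K F ≤ g) {Pin : Fin n → Place K F} (hPin : ∀ i, S.r (Pin i) = X.Qb i) :
    haveI := hF.principal
    ∃ s : F, S.resF s = X.f0b ∧ ∃ P' : Fin g → Place K F, (∀ j, P' j ∈ C'.Disc j) ∧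
      divOf K s = sumPts Pin + X.R + sumPts P' - Finsupp.single X.Pinf (X.m : ℤ) := by
  classical
  haveI := hF.principal
  haveI := hFt.principal
  -- a nonzero function in `L(m∞ − R − ΣPin)`
  have h1 : (1 : ℤ) ≤ finrank K (riemannRochSpace (X.inDiv Pin)) := by
    have h := hF.riemann_le (X.inDiv Pin)
    rw [X.degree_inDiv hF] at h
    have hg' : (genusFF K F : ℤ) ≤ g := by exact_mod_cast hg
    linarith
  have hne : riemannRochSpace (X.inDiv Pin) ≠ ⊥ := by
    intro hbot
    rw [hbot, finrank_bot] at h1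
    norm_num at h1
  obtain ⟨f0, hf0L, hf0⟩ := (Submodule.ne_bot_iff _).mp hne
  obtain ⟨c, hc, hres⟩ := exists_smul_resF_ne_zero S hf0
  have hfL : c • f0 ∈ riemannRochSpace (X.inDiv Pin) := Submodule.smul_mem _ c hf0L
  -- its residue is a multiple of `f0b`
  have hresL := S.resF_mem_riemannRochSpace hF (X.inDiv Pin) hfL
  rw [X.mapDomain_inDiv hPin] at hresL
  obtain ⟨cb, hcb⟩ := X.hspan _ hresL
  have hcb0 : cb ≠ 0 := by
    rintro rfl
    rw [zero_smul] at hcb
    exact hres hcb
  obtain ⟨a, ha, has⟩ := exists_smul_resF_eq hπ hcb0 X.f0b_ne_zero hcb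
  have hsL : a • c • f0 ∈ riemannRochSpace (X.inDiv Pin) := Submodule.smul_mem _ a hfL
  have hsres : S.resF (a • c • f0) ≠ 0 := by
    rw [has]
    exact X.f0b_ne_zero
  have hs : a • c • f0 ≠ 0 := S.ne_zero_of_resF_ne_zero hsres
  refine ⟨a • c • f0, has, ?_⟩
  have hEnn : 0 ≤ divOf K (a • c • f0) + X.inDiv Pin :=
    (mem_riemannRochSpace_iff_divOf.mp hsL).resolve_left hs
  have hEdeg : Divisor.degree (divOf K (a • c • f0) + X.inDiv Pin) = g := by
    rw [map_add, degree_divOf, X.degree_inDiv hF, zero_add]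
  have hrE : Finsupp.mapDomain S.r (divOf K (a • c • f0) + X.inDiv Pin) = sumPts C'.Pb := by
    rw [Finsupp.mapDomain_add, mapDomain_divOf S hF hFt hsres, has, X.divOf_f0b hFt,
      X.mapDomain_inDiv hPin]
    abel
  obtain ⟨P', hP', hEP⟩ := C'.exists_eq_sumPts hF hEnn hEdeg hrE
  refine ⟨P', hP', ?_⟩
  have h2 : divOf K (a • c • f0) = sumPts P' - X.inDiv Pin := by
    rw [← hEP]
    abel
  rw [h2, inDiv]
  abel

/-- **(GC2) uniqueness of the chord**. -/
theorem chord_unique (hπ : Function.Surjective π) (hF : RiemannPkg K F) (hFt : RiemannPkg k Ft)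
    {Pin : Fin n → Place K F} {P' P'' : Fin g → Place K F} (hP' : ∀ j, P' j ∈ C'.Disc j)
    (hP'' : ∀ j, P'' j ∈ C'.Disc j)
    (h' : sumPts P' - X.inDiv Pin ∈ Divisor.principal (K := K) (F := F))
    (h'' : sumPts P'' - X.inDiv Pin ∈ Divisor.principal (K := K) (F := F)) : P' = P'' := by
  refine C'.chart_unique hπ hF hFt hP' hP'' ?_
  have h := sub_mem h' h''
  have h2 : sumPts P' - X.inDiv Pin - (sumPts P'' - X.inDiv Pin) = sumPts P' - sumPts P'' := by
    abel
  rwa [h2] at h

variable (hπ : Function.Surjective π) (hF : RiemannPkg K F) (hFt : RiemannPkg k Ft)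
  (hg : genusFF K F ≤ g)

include hπ hF hFt hg in
/-- Reformulation of `exists_chord` at the level of classes. -/
theorem exists_out {Pin : Fin n → Place K F} (hPin : ∀ i, S.r (Pin i) = X.Qb i) :
    ∃ P' : Fin g → Place K F, (∀ j, P' j ∈ C'.Disc j) ∧
      sumPts P' - X.inDiv Pin ∈ Divisor.principal (K := K) (F := F) := by
  haveI := hF.principal
  obtain ⟨s, hs, P', hP', hdiv⟩ := X.exists_chord hπ hF hFt hg hPin
  refine ⟨P', hP', ?_⟩
  have hs0 : s ≠ 0 := S.ne_zero_of_resF_ne_zero (by rw [hs]; exact X.f0b_ne_zero)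
  have h2 : sumPts P' - X.inDiv Pin = divOf K s := by
    rw [hdiv, inDiv]
    abel
  rw [h2]
  exact divOf_mem_principal hs0

open Classical in
/-- **The chord map**: the output points (junk value `C'.P0` if the input is not in the discs). -/
noncomputable def out (Pin : Fin n → Place K F) : Fin g → Place K F :=
  if hPin : ∀ i, S.r (Pin i) = X.Qb i then Classical.choose (X.exists_out hπ hF hFt hg hPin)
  else C'.P0

theorem out_mem_Disc (Pin : Fin n → Place K F) (j : Fin g) :
    X.out hπ hF hFt hg Pin j ∈ C'.Disc j := by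
  classical
  by_cases hPin : ∀ i, S.r (Pin i) = X.Qb i
  · rw [out, dif_pos hPin]
    exact (Classical.choose_spec (X.exists_out hπ hF hFt hg hPin)).1 j
  · rw [out, dif_neg hPin]
    exact C'.P0_mem_Disc j

theorem out_spec {Pin : Fin n → Place K F} (hPin : ∀ i, S.r (Pin i) = X.Qb i) :
    sumPts (X.out hπ hF hFt hg Pin) - X.inDiv Pin ∈ Divisor.principal (K := K) (F := F) := by
  classical
  rw [out, dif_pos hPin]
  exact (Classical.choose_spec (X.exists_out hπ hF hFt hg hPin)).2

theorem out_eq_iff {Pin : Fin n → Place K F} (hPin : ∀ i, S.r (Pin i) = X.Qb i)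
    {P' : Fin g → Place K F} (hP' : ∀ j, P' j ∈ C'.Disc j) :
    X.out hπ hF hFt hg Pin = P' ↔
      sumPts P' - X.inDiv Pin ∈ Divisor.principal (K := K) (F := F) := by
  constructor
  · rintro rfl
    exact X.out_spec hπ hF hFt hg hPin
  · intro h
    exact X.chord_unique hπ hF hFt (X.out_mem_Disc hπ hF hFt hg Pin) hP'
      (X.out_spec hπ hF hFt hg hPin) h

/-- The function of the chord: residue `f0b`, divisor `ΣPin + R + Σ out − m∞`. -/
theorem exists_fn {Pin : Fin n → Place K F} (hPin : ∀ i, S.r (Pin i) = X.Qb i) :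
    haveI := hF.principal
    ∃ s : F, S.resF s = X.f0b ∧ divOf K s =
      sumPts Pin + X.R + sumPts (X.out hπ hF hFt hg Pin) - Finsupp.single X.Pinf (X.m : ℤ) := by
  haveI := hF.principal
  obtain ⟨s, hs, P', hP', hdiv⟩ := X.exists_chord hπ hF hFt hg hPin
  refine ⟨s, hs, ?_⟩
  have hs0 : s ≠ 0 := S.ne_zero_of_resF_ne_zero (by rw [hs]; exact X.f0b_ne_zero)
  have h : X.out hπ hF hFt hg Pin = P' := by
    rw [X.out_eq_iff hπ hF hFt hg hPin hP']
    have h2 : sumPts P' - X.inDiv Pin = divOf K s := by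
      rw [hdiv, inDiv]
      abel
    rw [h2]
    exact divOf_mem_principal hs0
  rw [h, hdiv]

include hπ hF hFt hg in
/-- `m∞ − R − ΣPin − ΣP0'` lies in the kernel of reduction. -/
theorem inDiv_sub_mem_kerRed {Pin : Fin n → Place K F} (hPin : ∀ i, S.r (Pin i) = X.Qb i) :
    X.inDiv Pin - sumPts C'.P0 ∈ kerRed S := by
  have h1 := C'.sumPts_sub_mem_kerRed hF (X.out_mem_Disc hπ hF hFt hg Pin) C'.P0_mem_Disc
  have h2 := principal_le_kerRed S hF (X.out_spec hπ hF hFt hg hPin)
  have h3 := sub_mem h1 h2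
  have h4 : sumPts (X.out hπ hF hFt hg Pin) - sumPts C'.P0 -
      (sumPts (X.out hπ hF hFt hg Pin) - X.inDiv Pin) = X.inDiv Pin - sumPts C'.P0 := by abel
  rwa [h4] at h3

/-- **(GC3)** The chord in terms of the output chart:
`out Pin = C'.pt (m∞ − R − ΣPin − ΣP0')`. -/
theorem out_eq_pt {Pin : Fin n → Place K F} (hPin : ∀ i, S.r (Pin i) = X.Qb i) :
    X.out hπ hF hFt hg Pin = C'.pt hF hFt hg (X.inDiv Pin - sumPts C'.P0) := by
  symm
  rw [C'.pt_eq_iff hπ hF hFt hg (X.inDiv_sub_mem_kerRed hπ hF hFt hg hPin)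
    (X.out_mem_Disc hπ hF hFt hg Pin)]
  have h := X.out_spec hπ hF hFt hg hPin
  have h2 : sumPts (X.out hπ hF hFt hg Pin) - sumPts C'.P0 - (X.inDiv Pin - sumPts C'.P0) =
      sumPts (X.out hπ hF hFt hg Pin) - X.inDiv Pin := by abel
  rwa [h2]

end ChordData

end Fermat.Agent.FF2.GC
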